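import Fermat.Agent.F4.HyperPair
import Fermat.Agent.F4.DDT.Basic

/-!
# F4 / PT / Abs / Deg0 : `HH²(Hom(M', A[0])) = H²(M)` for `θ : M ≃ Hom(M', A)`

For a module `A` (in degree `0`) and an equivariant isomorphism `θ : M ≃ Hom_k(M', A)`, the smooth
hypercohomology `HH²` of the complex `Hom(M', A[0])` is the smooth `H²` of `M`:
`ptTheta : HH² 𝓤 (homCx M' (Cx.deg0 A)) →ₗ H2sm 𝓤 M`, bijective, `[(θ ∘ c, 0)] ↦ [c]`.
-/

set_option autoImplicit false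

open CategoryTheory Module groupCohomology

namespace Fermat.Agent.F4

variable {k G : Type} [Field k] [Group G]

section Deg0

variable (𝓤 : Levels G) {M M' A : Rep.{0} k G} (θ : M ≃ₗ[k] (M' →ₗ[k] A))
  (hθ : ∀ (g : G) (m : M) (m' : M'), θ (M.ρ g m) m' = A.ρ g (θ m (M'.ρ g⁻¹ m')))

/-- Cochains with values in the degree-1 term of `Hom(M', A[0])` are all equal. -/
lemma pt_deg0_K1_eq {X : Type} (b b' : X → (homCx M' (Cx.deg0 A)).K1) : b = b' := by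
  funext x
  refine LinearMap.ext fun m' => ?_
  exact Subsingleton.elim (α := PUnit.{1}) _ _

/-- `θ` with values in the degree-0 term of `Hom(M', A[0])`. -/
def ptθ : M →ₗ[k] (homCx M' (Cx.deg0 A)).K0 := θ.toLinearMap

/-- `θ⁻¹` on the degree-0 term of `Hom(M', A[0])`. -/
def ptθs : (homCx M' (Cx.deg0 A)).K0 →ₗ[k] M := θ.symm.toLinearMap

lemma ptθ_ptθs (f : (homCx M' (Cx.deg0 A)).K0) : ptθ θ (ptθs θ f) = f :=
  θ.apply_symm_apply _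

lemma ptθs_ptθ (m : M) : ptθs θ (ptθ θ m) = m := θ.symm_apply_apply _

lemma ptθ_injective : Function.Injective (ptθ (A := A) θ) := θ.injective

include hθ in
/-- `θ` is equivariant for the conjugation action on `Hom(M', A)`. -/
lemma ptθ_equivariant (g : G) (m : M) :
    ptθ θ (M.ρ g m) = (homCx M' (Cx.deg0 A)).K0.ρ g (ptθ θ m) :=
  LinearMap.ext fun m' => hθ g m m'

/-- The cochain `(θ ∘ c, 0)` of `Hom(M', A[0])` attached to a 2-cochain `c` of `M`. -/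
def ptToHom (c : G × G → M) : T2 (homCx M' (Cx.deg0 A)) :=
  (fun p => ptθ θ (c p), 0)

/-- The cochain `(θ ∘ a, 0)` of `Hom(M', A[0])` attached to a 1-cochain `a` of `M`. -/
def ptToHom1 (a : G → M) : T1 (homCx M' (Cx.deg0 A)) :=
  (fun g => ptθ θ (a g), 0)

@[simp] lemma ptToHom_fst (c : G × G → M) (p : G × G) : (ptToHom θ c).1 p = ptθ θ (c p) := rfl

@[simp] lemma ptToHom1_fst (a : G → M) (g : G) : (ptToHom1 θ a).1 g = ptθ θ (a g) := rfl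

/-- The 2-cochain `θ⁻¹ ∘ a` of `M` attached to a cochain of `Hom(M', A[0])`. -/
def ptOfHom (z : T2 (homCx M' (Cx.deg0 A))) : G × G → M := fun p => ptθs θ (z.1 p)

/-- The 1-cochain `θ⁻¹ ∘ a` of `M` attached to a cochain of `Hom(M', A[0])`. -/
def ptOfHom1 (z : T1 (homCx M' (Cx.deg0 A))) : G → M := fun g => ptθs θ (z.1 g)

lemma ptToHom_ptOfHom (z : T2 (homCx M' (Cx.deg0 A))) : ptToHom θ (ptOfHom θ z) = z := by
  refine Prod.ext ?_ (pt_deg0_K1_eq _ _)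
  funext p
  exact ptθ_ptθs θ _

lemma ptToHom1_ptOfHom1_fst (z : T1 (homCx M' (Cx.deg0 A))) :
    (ptToHom1 θ (ptOfHom1 θ z)).1 = z.1 := by
  funext p
  exact ptθ_ptθs θ _

lemma ptOfHom_ptToHom (c : G × G → M) : ptOfHom θ (ptToHom θ c) = c := by
  funext p
  exact ptθs_ptθ θ _

include hθ in
lemma pt_δ2_θ (c : G × G → M) (p : G × G × G) :
    δ2 (homCx M' (Cx.deg0 A)).K0 (ptToHom θ c).1 p = ptθ θ (δ2 M c p) := by
  simp only [δ2_apply, map_add, map_sub, ptToHom_fst]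
  rw [ptθ_equivariant θ hθ]

include hθ in
lemma pt_δ1_θ (a : G → M) (p : G × G) :
    δ1 (homCx M' (Cx.deg0 A)).K0 (ptToHom1 θ a).1 p = ptθ θ (δ1 M a p) := by
  simp only [δ1_apply, map_add, map_sub, ptToHom1_fst]
  rw [ptθ_equivariant θ hθ]

lemma pt_mem_Z2_iff (c : G × G → M) : c ∈ Z2 𝓤 M ↔ δ2 M c = 0 ∧ IsLC₂ 𝓤 c := Iff.rfl

lemma pt_mem_B2_iff (c : G × G → M) : c ∈ B2 𝓤 M ↔ ∃ a : G → M, IsLC₁ 𝓤 a ∧ δ1 M a = c := by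
  simp only [B2, Submodule.mem_map, mem_lc₁_iff]
  rfl

include hθ in
lemma ptToHom_mem_ZZ2_iff (c : G × G → M) :
    ptToHom θ c ∈ ZZ2 𝓤 (homCx M' (Cx.deg0 A)) ↔ c ∈ Z2 𝓤 M := by
  rw [mem_ZZ2_iff, pt_mem_Z2_iff]
  constructor
  · rintro ⟨h1, -, h3, -⟩
    refine ⟨?_, ?_⟩
    · funext p
      have := congrFun h1 p
      rw [pt_δ2_θ θ hθ] at this
      exact ptθ_injective θ (this.trans (map_zero (ptθ θ)).symm)
    · have := h3.comp (ptθs θ)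
      have h4 : (ptθs θ ∘ (ptToHom θ c).1) = c := ptOfHom_ptToHom θ c
      rw [h4] at this
      exact this
  · rintro ⟨h1, h2⟩
    refine ⟨?_, pt_deg0_K1_eq _ _, h2.comp (ptθ θ), ?_⟩
    · funext p
      rw [pt_δ2_θ θ hθ, h1]
      exact map_zero (ptθ θ)
    · obtain ⟨U, hU⟩ := 𝓤.nonempty
      exact ⟨U, hU, fun _ _ _ => rfl⟩

include hθ in
lemma ptToHom_mem_BB2_iff (c : G × G → M) :
    ptToHom θ c ∈ BB2 𝓤 (homCx M' (Cx.deg0 A)) ↔ c ∈ B2 𝓤 M := by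
  rw [mem_BB2_iff, pt_mem_B2_iff]
  constructor
  · rintro ⟨cd, hlc, hD⟩
    refine ⟨ptOfHom1 θ cd, hlc.comp (ptθs θ), ?_⟩
    funext p
    have h1 : δ1 (homCx M' (Cx.deg0 A)).K0 cd.1 p = ptθ θ (c p) :=
      congrFun (congrArg Prod.fst hD) p
    apply ptθ_injective θ
    rw [← h1, ← pt_δ1_θ θ hθ, ptToHom1_ptOfHom1_fst]
  · rintro ⟨a, hlc, ha⟩
    refine ⟨ptToHom1 θ a, hlc.comp (ptθ θ), ?_⟩
    refine Prod.ext ?_ (pt_deg0_K1_eq _ _)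
    funext p
    show δ1 (homCx M' (Cx.deg0 A)).K0 (ptToHom1 θ a).1 p = ptθ θ (c p)
    rw [pt_δ1_θ θ hθ, ha]

/-- The map `ZZ²(Hom(M', A[0])) → Z²(M)`, `(a, b) ↦ θ⁻¹ ∘ a`. -/
def ptThetaZ : ↥(ZZ2 𝓤 (homCx M' (Cx.deg0 A))) →ₗ[k] ↥(Z2 𝓤 M) where
  toFun z := ⟨ptOfHom θ z.1, by
    rw [← ptToHom_mem_ZZ2_iff 𝓤 θ hθ, ptToHom_ptOfHom]
    exact z.2⟩
  map_add' z z' := by
    refine Subtype.ext (funext fun p => ?_)
    exact map_add (ptθs θ) _ _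
  map_smul' a z := by
    refine Subtype.ext (funext fun p => ?_)
    exact map_smul (ptθs θ) _ _

@[simp] lemma ptThetaZ_coe (z : ↥(ZZ2 𝓤 (homCx M' (Cx.deg0 A)))) :
    ((ptThetaZ 𝓤 θ hθ z : ↥(Z2 𝓤 M)) : G × G → M) = ptOfHom θ z.1 := rfl

/-- `Θ : HH²(Hom(M', A[0])) → H²(M)`. -/
def ptTheta : HH2 𝓤 (homCx M' (Cx.deg0 A)) →ₗ[k] H2sm 𝓤 M :=
  Submodule.mapQ _ _ (ptThetaZ 𝓤 θ hθ) (by
    intro z hz
    have hz' : (z : T2 (homCx M' (Cx.deg0 A))) ∈ BB2 𝓤 (homCx M' (Cx.deg0 A)) := hz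
    show ptOfHom θ z.1 ∈ B2 𝓤 M
    rw [← ptToHom_mem_BB2_iff 𝓤 θ hθ, ptToHom_ptOfHom]
    exact hz')

@[simp] lemma ptTheta_mk (z : ↥(ZZ2 𝓤 (homCx M' (Cx.deg0 A)))) :
    ptTheta 𝓤 θ hθ (HH2π 𝓤 _ z) = H2smπ 𝓤 M (ptThetaZ 𝓤 θ hθ z) := rfl

lemma pta_H2smπ_eq_zero_iff (c : ↥(Z2 𝓤 M)) : H2smπ 𝓤 M c = 0 ↔ (c : G × G → M) ∈ B2 𝓤 M := by
  rw [H2smπ, Submodule.mkQ_apply, Submodule.Quotient.mk_eq_zero, Submodule.mem_comap,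
    Submodule.subtype_apply]

lemma pta_H2smπ_surjective (M : Rep.{0} k G) : Function.Surjective (H2smπ 𝓤 M) :=
  Submodule.mkQ_surjective _

theorem ptTheta_injective : Function.Injective (ptTheta 𝓤 θ hθ) := by
  rw [injective_iff_map_eq_zero]
  intro zz hzz
  obtain ⟨z, rfl⟩ := HH2π_surjective 𝓤 _ zz
  rw [ptTheta_mk, pta_H2smπ_eq_zero_iff, ptThetaZ_coe, ← ptToHom_mem_BB2_iff 𝓤 θ hθ,
    ptToHom_ptOfHom] at hzz
  rw [HH2π_eq_zero_iff]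
  exact hzz

/-- The cocycle `(θ ∘ c, 0)`. -/
def ptToHomZ (c : ↥(Z2 𝓤 M)) : ↥(ZZ2 𝓤 (homCx M' (Cx.deg0 A))) :=
  ⟨ptToHom θ c.1, (ptToHom_mem_ZZ2_iff 𝓤 θ hθ c.1).2 c.2⟩

lemma ptThetaZ_ptToHomZ (c : ↥(Z2 𝓤 M)) : ptThetaZ 𝓤 θ hθ (ptToHomZ 𝓤 θ hθ c) = c :=
  Subtype.ext (ptOfHom_ptToHom θ c.1)

lemma ptTheta_ptToHomZ (c : ↥(Z2 𝓤 M)) :
    ptTheta 𝓤 θ hθ (HH2π 𝓤 _ (ptToHomZ 𝓤 θ hθ c)) = H2smπ 𝓤 M c := by
  rw [ptTheta_mk, ptThetaZ_ptToHomZ]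

theorem ptTheta_surjective : Function.Surjective (ptTheta 𝓤 θ hθ) := by
  intro x
  obtain ⟨c, rfl⟩ := pta_H2smπ_surjective 𝓤 M x
  exact ⟨_, ptTheta_ptToHomZ 𝓤 θ hθ c⟩

end Deg0

end Fermat.Agent.F4
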