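import Fermat.Agent.F4.HyperPair
import Fermat.Agent.F4.DDT.Basic

/-!
# F4 / PT / Abs / Nat : naturality of the pairings in the complex and under restriction

* `pta_homCxPost_shortExact` : `Hom(N, -)` preserves termwise short exact sequences of complexes;
* `pta_cup1_post`, `pta_cup2_post` : covariant naturality of `cup1`, `cup2` in `K`;
* `pta_cup1_res`, `pta_cup2_res` : compatibility with restriction along `r : H →* G`;
* `pta_resHomT1_D0`, `pta_resHomT2_D1` : restriction commutes with the differentials;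
* `pta_isSmooth_res`, `IsSmooth.pta_mono`, `pta_ZZ2_mono`, `pta_BB2_mono`.
-/

set_option autoImplicit false

open CategoryTheory Module groupCohomology

namespace Fermat.Agent.F4

variable {k G : Type} [Field k] [Group G]

/-! ### `Hom(N, -)` is exact -/

section HomExact

variable (N : Rep.{0} k G) {K' K K'' : Cx k G} {f : CxHom K' K} {g : CxHom K K''}

private lemma pt_exists_lift {V W : Type} [AddCommGroup V] [Module k V] [AddCommGroup W]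
    [Module k W] (φ : V →ₗ[k] W) (hφ : Function.Surjective φ) (u : N →ₗ[k] W) :
    ∃ v : N →ₗ[k] V, ∀ n, φ (v n) = u n := by
  obtain ⟨s, hs⟩ := φ.exists_rightInverse_of_surjective (LinearMap.range_eq_top.2 hφ)
  refine ⟨s.comp u, fun n => ?_⟩
  exact congrArg (fun ψ : W →ₗ[k] W => ψ (u n)) hs

private lemma pt_exists_factor {V W : Type} [AddCommGroup V] [Module k V] [AddCommGroup W]
    [Module k W] (φ : V →ₗ[k] W) (hφ : Function.Injective φ) (u : N →ₗ[k] W)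
    (hu : ∀ n, ∃ y, φ y = u n) : ∃ v : N →ₗ[k] V, ∀ n, φ (v n) = u n := by
  obtain ⟨r, hr⟩ := φ.exists_leftInverse_of_injective (LinearMap.ker_eq_bot.2 hφ)
  refine ⟨r.comp u, fun n => ?_⟩
  obtain ⟨y, hy⟩ := hu n
  show φ (r (u n)) = u n
  rw [← hy]
  congr 1
  exact congrArg (fun ψ : V →ₗ[k] V => ψ y) hr

/-- `0 → Hom(N, K') → Hom(N, K) → Hom(N, K'') → 0` is termwise exact. -/
theorem pta_homCxPost_shortExact (h : CxShortExact f g) :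
    CxShortExact (homCxPost N f) (homCxPost N g) := by
  refine ⟨?_, ?_, ?_, ?_, ?_, ?_⟩
  · intro u v huv
    refine LinearMap.ext fun n => h.inj0 ?_
    exact congrArg (fun φ : N →ₗ[k] K.K0 => φ n) huv
  · intro u v huv
    refine LinearMap.ext fun n => h.inj1 ?_
    exact congrArg (fun φ : N →ₗ[k] K.K1 => φ n) huv
  · intro u
    obtain ⟨v, hv⟩ := pt_exists_lift N g.f0 h.surj0 u
    exact ⟨v, LinearMap.ext hv⟩
  · intro u
    obtain ⟨v, hv⟩ := pt_exists_lift N g.f1 h.surj1 u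
    exact ⟨v, LinearMap.ext hv⟩
  · intro u
    constructor
    · intro hu
      have hu' : ∀ n, ∃ y, f.f0 y = (u : N →ₗ[k] K.K0) n := fun n =>
        (h.exact0 _).1 (congrArg (fun φ : N →ₗ[k] K''.K0 => φ n) hu)
      obtain ⟨v, hv⟩ := pt_exists_factor N f.f0 h.inj0 u hu'
      exact ⟨v, LinearMap.ext hv⟩
    · rintro ⟨v, rfl⟩
      refine LinearMap.ext fun n => ?_
      exact (h.exact0 _).2 ⟨(v : N →ₗ[k] K'.K0) n, rfl⟩
  · intro u
    constructor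
    · intro hu
      have hu' : ∀ n, ∃ y, f.f1 y = (u : N →ₗ[k] K.K1) n := fun n =>
        (h.exact1 _).1 (congrArg (fun φ : N →ₗ[k] K''.K1 => φ n) hu)
      obtain ⟨v, hv⟩ := pt_exists_factor N f.f1 h.inj1 u hu'
      exact ⟨v, LinearMap.ext hv⟩
    · rintro ⟨v, rfl⟩
      refine LinearMap.ext fun n => ?_
      exact (h.exact1 _).2 ⟨(v : N →ₗ[k] K'.K1) n, rfl⟩

end HomExact

/-! ### Naturality of the pairings in `K` -/

section Post

variable (N : Rep.{0} k G) {K L : Cx k G} (φ : CxHom K L)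

theorem pta_cup1_post (e : T1 (homCx N K)) (y : G → N) :
    cup1 N L ((homCxPost N φ).t1 e) y = φ.t2 (cup1 N K e y) := rfl

theorem pta_cup2_post (z : T2 (homCx N K)) (n : N) :
    cup2 N L ((homCxPost N φ).t2 z) n = φ.t2 (cup2 N K z n) := rfl

lemma CxHom.pta_onT1_eq : φ.onT1 = φ.t1 := rfl

lemma CxHom.pta_onT2_eq : φ.onT2 = φ.t2 := rfl

lemma CxHom.pta_mapZZ1_eq (𝓤 : Levels G) : φ.mapZZ1 𝓤 = φ.zz1 𝓤 := rfl

lemma CxHom.pta_mapZZ2_eq (𝓤 : Levels G) : φ.mapZZ2 𝓤 = φ.zz2 𝓤 := rfl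

end Post

/-! ### Restriction -/

section Res

variable {H : Type} [Group H] (r : H →* G) (𝓤 : Levels G) (N : Rep.{0} k G) (K : Cx k G)

lemma pta_isSmooth_res {A : Rep.{0} k G} (hA : IsSmooth 𝓤 A) :
    IsSmooth (𝓤.comap r) (Rep.res r A) := by
  intro a
  obtain ⟨U, hU, hfix⟩ := hA a
  exact ⟨U.comap r, ⟨U, hU, rfl⟩, fun h hh => hfix (r h) hh⟩

lemma pta_cx_smooth_res {K : Cx k G} (hK : K.Smooth 𝓤) : (K.res r).Smooth (𝓤.comap r) :=
  ⟨pta_isSmooth_res r 𝓤 hK.1, pta_isSmooth_res r 𝓤 hK.2⟩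

theorem pta_cup1_res (e : T1 (homCx N K)) (y : G → N) :
    cup1 (Rep.res r N) (K.res r) (resHomT1 r N K e) (fun h => y (r h))
      = resT2 r K (cup1 N K e y) := rfl

theorem pta_cup2_res (z : T2 (homCx N K)) (n : N) :
    cup2 (Rep.res r N) (K.res r) (resHomT2 r N K z) n = resT2 r K (cup2 N K z n) := rfl

lemma pta_resHomT1_D0 (x : (homCx N K).K0) :
    resHomT1 r N K (D0 (homCx N K) x) = D0 (homCx (Rep.res r N) (K.res r)) x := by
  refine Prod.ext ?_ rfl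
  funext h
  refine LinearMap.ext fun n => ?_
  show K.K0.ρ (r h) ((x : N →ₗ[k] K.K0) (N.ρ ((r h)⁻¹) n)) - (x : N →ₗ[k] K.K0) n
    = K.K0.ρ (r h) ((x : N →ₗ[k] K.K0) (N.ρ (r h⁻¹) n)) - (x : N →ₗ[k] K.K0) n
  rw [map_inv r]

lemma pta_resHomT1_mem_BB1 {c : T1 (homCx N K)} (hc : c ∈ BB1 (homCx N K)) :
    resHomT1 r N K c ∈ BB1 (homCx (Rep.res r N) (K.res r)) := by
  obtain ⟨x, rfl⟩ := (mem_BB1_iff _ _).1 hc
  exact (mem_BB1_iff _ _).2 ⟨x, (pta_resHomT1_D0 r N K x).symm⟩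

lemma pta_resHomT2_D1 (c : T1 (homCx N K)) :
    resHomT2 r N K (D1 (homCx N K) c) = D1 (homCx (Rep.res r N) (K.res r)) (resHomT1 r N K c) := by
  refine Prod.ext ?_ ?_
  · funext p
    refine LinearMap.ext fun n => ?_
    show K.K0.ρ (r p.1) ((c.1 (r p.2) : N →ₗ[k] K.K0) (N.ρ ((r p.1)⁻¹) n))
        - (c.1 (r p.1 * r p.2) : N →ₗ[k] K.K0) n + (c.1 (r p.1) : N →ₗ[k] K.K0) n
      = K.K0.ρ (r p.1) ((c.1 (r p.2) : N →ₗ[k] K.K0) (N.ρ (r p.1⁻¹) n))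
        - (c.1 (r (p.1 * p.2)) : N →ₗ[k] K.K0) n + (c.1 (r p.1) : N →ₗ[k] K.K0) n
    rw [map_inv r, map_mul r]
  · funext h
    refine LinearMap.ext fun n => ?_
    show K.d ((c.1 (r h) : N →ₗ[k] K.K0) n)
        - (K.K1.ρ (r h) ((c.2 : N →ₗ[k] K.K1) (N.ρ ((r h)⁻¹) n)) - (c.2 : N →ₗ[k] K.K1) n)
      = K.d ((c.1 (r h) : N →ₗ[k] K.K0) n)
        - (K.K1.ρ (r h) ((c.2 : N →ₗ[k] K.K1) (N.ρ (r h⁻¹) n)) - (c.2 : N →ₗ[k] K.K1) n)
    rw [map_inv r]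

lemma pta_resHomT2_mem_BB2 {z : T2 (homCx N K)} (hz : z ∈ BB2 𝓤 (homCx N K)) :
    resHomT2 r N K z ∈ BB2 (𝓤.comap r) (homCx (Rep.res r N) (K.res r)) := by
  obtain ⟨c, hc, rfl⟩ := (mem_BB2_iff 𝓤 _ z).1 hz
  refine (mem_BB2_iff _ _ _).2 ⟨resHomT1 r N K c, ?_, (pta_resHomT2_D1 r N K c).symm⟩
  exact IsLC₁.comp_hom 𝓤 r hc

end Res

/-! ### Change of levels -/

section Levels

variable {𝓤 𝓥 : Levels G} (h : 𝓤.sets ⊆ 𝓥.sets)

include h in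
lemma IsSmooth.pta_mono {A : Rep.{0} k G} (hA : IsSmooth 𝓤 A) : IsSmooth 𝓥 A := by
  intro a
  obtain ⟨U, hU, hfix⟩ := hA a
  exact ⟨U, h hU, hfix⟩

include h in
lemma Cx.Smooth.pta_mono {K : Cx k G} (hK : K.Smooth 𝓤) : K.Smooth 𝓥 :=
  ⟨IsSmooth.pta_mono h hK.1, IsSmooth.pta_mono h hK.2⟩

include h in
lemma pta_ZZ2_mono (K : Cx k G) : ZZ2 𝓤 K ≤ ZZ2 𝓥 K := by
  intro z hz
  obtain ⟨h1, h2, h3, h4⟩ := (mem_ZZ2_iff 𝓤 K z).1 hz
  refine (mem_ZZ2_iff 𝓥 K z).2 ⟨h1, h2, ?_, ?_⟩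
  · obtain ⟨U, hU, hUf⟩ := h3
    exact ⟨U, h hU, hUf⟩
  · obtain ⟨U, hU, hUf⟩ := h4
    exact ⟨U, h hU, hUf⟩

include h in
lemma pta_BB2_mono (K : Cx k G) : BB2 𝓤 K ≤ BB2 𝓥 K := by
  intro z hz
  obtain ⟨c, hc, rfl⟩ := (mem_BB2_iff 𝓤 K z).1 hz
  refine (mem_BB2_iff 𝓥 K _).2 ⟨c, ?_, rfl⟩
  obtain ⟨U, hU, hUf⟩ := hc
  exact ⟨U, h hU, hUf⟩

end Levels

end Fermat.Agent.F4
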