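import Fermat.Agent.F4.PT.Defs
import Fermat.Agent.F4.DDT

/-!
# F4 / PT / Abs / Iota : the maps `α¹`, `ι` of the Poitou–Tate segment, `ι` surjective, `compat`

For a global datum `D : GlobalDatum p S` and a finite smooth `M'`:
* `ptA1 𝓤 K inv N hN hfin : HH¹(Hom(N, K)) → H¹(N)^*`, the pairing `α¹` as a linear map (generic);
* `ptLoc D M' q : HH¹(Hom(M', KJ)) → HH¹(Hom(M'|q, K_q))` (restriction to the local group, followed
  by the evaluation `ev q`);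
* `ptIota D M' hM' hfin' : HH¹(Hom(M', KJ)) → (∏_q H¹(D_q, M'))^*`, `ι = ∑_q α¹_q ∘ ptLoc q`;
* `ptIota_surjective` : from `D.shapiro1` and the local `ddt`;
* `ptBeta`, `ptAlpha` and `pt_compat : α ∘ β = loc^* ∘ ι` : from `D.recip`.
-/

set_option autoImplicit false

open CategoryTheory Module groupCohomology ExtCitation

namespace Fermat.Agent.F4

/-! ### Generic part -/

section Generic

variable {k G : Type} [Field k] [Group G]

section Alpha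

variable (𝓤 : Levels G) (K : Cx k G) (inv : HH2 𝓤 K →ₗ[k] k) (N : Rep.{0} k G)
  (hN : IsSmooth 𝓤 N) (hfin : Module.Finite k N)

/-- `e ↦ α¹(e)`, linear in the cocycle `e`. -/
def ptA1Z : ↥(ZZ1 𝓤 (homCx N K)) →ₗ[k] Dual k (H1sm 𝓤 N) where
  toFun e := ddtAlpha1 𝓤 K inv N hN hfin e
  map_add' e e' := by
    refine LinearMap.ext fun x => ?_
    obtain ⟨y, rfl⟩ := H1smπ_surjective 𝓤 N x
    rw [LinearMap.add_apply, ddtAlpha1_mk, ddtAlpha1_mk, ddtAlpha1_mk, ← map_add, ← map_add]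
    congr 2
  map_smul' a e := by
    refine LinearMap.ext fun x => ?_
    obtain ⟨y, rfl⟩ := H1smπ_surjective 𝓤 N x
    rw [LinearMap.smul_apply, RingHom.id_apply, ddtAlpha1_mk, ddtAlpha1_mk, smul_eq_mul,
      ← smul_eq_mul, ← map_smul, ← map_smul]
    congr 2

lemma ptA1Z_mk (e : ↥(ZZ1 𝓤 (homCx N K))) (y : ↥(Z1 𝓤 N)) :
    ptA1Z 𝓤 K inv N hN hfin e (H1smπ 𝓤 N y) = inv (HH2π 𝓤 K (cupZ1 𝓤 K N hN hfin e y)) := rfl

/-- `α¹ : HH¹(Hom(N, K)) → H¹(N)^*`. -/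
def ptA1 : HH1 𝓤 (homCx N K) →ₗ[k] Dual k (H1sm 𝓤 N) :=
  Submodule.liftQ _ (ptA1Z 𝓤 K inv N hN hfin) (by
    intro e he
    rw [LinearMap.mem_ker]
    obtain ⟨x, hx⟩ := (mem_BB1_iff (homCx N K) e.1).1 he
    refine LinearMap.ext fun c => ?_
    obtain ⟨y, rfl⟩ := H1smπ_surjective 𝓤 N c
    rw [ptA1Z_mk, LinearMap.zero_apply]
    refine inv_eq_zero_of_mem_BB2 inv ?_
    show cup1 N K e.1 y.1 ∈ BB2 𝓤 K
    rw [← hx]
    exact cup1_D0_mem_BB2 𝓤 K N x y.2)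

lemma ptA1_mk (e : ↥(ZZ1 𝓤 (homCx N K))) (y : ↥(Z1 𝓤 N)) :
    ptA1 𝓤 K inv N hN hfin (HH1π 𝓤 (homCx N K) e) (H1smπ 𝓤 N y) =
      inv (HH2π 𝓤 K (cupZ1 𝓤 K N hN hfin e y)) := rfl

/-- `α¹` is surjective if `A1Surj` holds. -/
lemma ptA1_surjective (h : A1Surj 𝓤 K N inv hN hfin) :
    Function.Surjective (ptA1 𝓤 K inv N hN hfin) := by
  intro φ
  obtain ⟨z, hz⟩ := h φ
  refine ⟨HH1π 𝓤 (homCx N K) z, LinearMap.ext fun c => ?_⟩
  obtain ⟨y, rfl⟩ := H1smπ_surjective 𝓤 N c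
  rw [ptA1_mk]
  exact hz y

/-- `α¹` is injective if `A1Inj` holds. -/
lemma ptA1_injective (h : A1Inj 𝓤 K N inv hN hfin) :
    Function.Injective (ptA1 𝓤 K inv N hN hfin) := by
  rw [← LinearMap.ker_eq_bot, LinearMap.ker_eq_bot']
  intro c hc
  obtain ⟨z, rfl⟩ := HH1π_surjective 𝓤 (homCx N K) c
  rw [HH1π_eq_zero_iff]
  refine h z fun y => ?_
  rw [← ptA1_mk, hc, LinearMap.zero_apply]

end Alpha

section Res

variable {H : Type} [Group H] (r : H →* G) (𝓤 : Levels G) (N : Rep.{0} k G) (K : Cx k G)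

lemma pt_isSmooth_res {N : Rep.{0} k G} (hN : IsSmooth 𝓤 N) : IsSmooth (𝓤.comap r) (Rep.res r N) := by
  intro a
  obtain ⟨U, hU, hUa⟩ := hN a
  exact ⟨U.comap r, ⟨U, hU, rfl⟩, fun h hh => hUa (r h) hh⟩

lemma pt_finite_res {N : Rep.{0} k G} (hfin : Module.Finite k N) :
    Module.Finite k (Rep.res r N) := hfin

/-- Restriction of smooth 1-cocycles of `Hom(N, K)` along `r`. -/
def ptResZZ1 : ↥(ZZ1 𝓤 (homCx N K)) →ₗ[k] ↥(ZZ1 (𝓤.comap r) (homCx (Rep.res r N) (K.res r))) where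
  toFun z := ⟨resHomT1 r N K z.1, resHomT1_mem_ZZ1 r 𝓤 N K z.2⟩
  map_add' _ _ := rfl
  map_smul' _ _ := rfl

/-- Restriction on `HH¹(Hom(N, K))` along `r`. -/
def ptResHH1 : HH1 𝓤 (homCx N K) →ₗ[k] HH1 (𝓤.comap r) (homCx (Rep.res r N) (K.res r)) :=
  Submodule.mapQ _ _ (ptResZZ1 r 𝓤 N K) (by
    intro z hz
    obtain ⟨x, hx⟩ := (mem_BB1_iff (homCx N K) z.1).1 hz
    refine (mem_BB1_iff _ _).2 ⟨x, ?_⟩
    show D0 (homCx (Rep.res r N) (K.res r)) x = resHomT1 r N K z.1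
    rw [← hx]
    refine Prod.ext (funext fun h => LinearMap.ext fun n => ?_) rfl
    show K.K0.ρ (r h) ((x : N →ₗ[k] K.K0) (N.ρ (r h⁻¹) n)) - (x : N →ₗ[k] K.K0) n
      = K.K0.ρ (r h) ((x : N →ₗ[k] K.K0) (N.ρ (r h)⁻¹ n)) - (x : N →ₗ[k] K.K0) n
    rw [map_inv])

lemma ptResHH1_mk (z : ↥(ZZ1 𝓤 (homCx N K))) :
    ptResHH1 r 𝓤 N K (HH1π 𝓤 (homCx N K) z) = HH1π _ _ (ptResZZ1 r 𝓤 N K z) := rfl

end Res

end Generic

/-! ### The maps of the Poitou–Tate segment -/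

section Iota

variable {p : ℕ} [Fact p.Prime] {S : Finset Nat.Primes} (D : GlobalDatum p S)
  (M' : Rep.{0} (ZMod p) GQ) (hM' : IsSmooth (levelsS S) M') (hfin' : Module.Finite (ZMod p) M')

/-- Restriction to the local group at `q` followed by the evaluation `ev q`, on cocycles. -/
noncomputable def ptLocZ (q : ↥S) : ↥(ZZ1 (levelsS S) (homCx M' D.KJ)) →ₗ[ZMod p]
    ↥(ZZ1 (locLevelsS S q.1) (homCx (Rep.res (primeLocalToGlobal q.1) M') (D.loc q).K)) :=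
  (homCxPost (Rep.res (primeLocalToGlobal q.1) M') (D.ev q)).mapZZ1 (locLevelsS S q.1) ∘ₗ
    ptResZZ1 (primeLocalToGlobal q.1) (levelsS S) M' D.KJ

lemma ptLocZ_coe (q : ↥S) (z : ↥(ZZ1 (levelsS S) (homCx M' D.KJ))) :
    ((ptLocZ D M' q z : ↥(ZZ1 (locLevelsS S q.1)
        (homCx (Rep.res (primeLocalToGlobal q.1) M') (D.loc q).K))) :
      T1 (homCx (Rep.res (primeLocalToGlobal q.1) M') (D.loc q).K)) =
    (homCxPost (Rep.res (primeLocalToGlobal q.1) M') (D.ev q)).onT1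
      (resHomT1 (primeLocalToGlobal q.1) M' D.KJ z.1) := rfl

/-- Restriction to the local group at `q` followed by the evaluation `ev q`, on classes. -/
noncomputable def ptLoc (q : ↥S) : HH1 (levelsS S) (homCx M' D.KJ) →ₗ[ZMod p]
    HH1 (locLevelsS S q.1) (homCx (Rep.res (primeLocalToGlobal q.1) M') (D.loc q).K) :=
  (homCxPost (Rep.res (primeLocalToGlobal q.1) M') (D.ev q)).mapHH1 (locLevelsS S q.1) ∘ₗ
    ptResHH1 (primeLocalToGlobal q.1) (levelsS S) M' D.KJ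

lemma ptLoc_mk (q : ↥S) (z : ↥(ZZ1 (levelsS S) (homCx M' D.KJ))) :
    ptLoc D M' q (HH1π _ _ z) = HH1π _ _ (ptLocZ D M' q z) := rfl

/-- The local pairing `α¹` at `q`. -/
noncomputable def ptA1loc (q : ↥S) :
    HH1 (locLevelsS S q.1) (homCx (Rep.res (primeLocalToGlobal q.1) M') (D.loc q).K) →ₗ[ZMod p]
      Dual (ZMod p) (H1sm (locLevelsS S q.1) (Rep.res (primeLocalToGlobal q.1) M')) :=
  ptA1 (locLevelsS S q.1) (D.loc q).K (D.loc q).inv (Rep.res (primeLocalToGlobal q.1) M')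
    (pt_isSmooth_res (primeLocalToGlobal q.1) (levelsS S) hM')
    (pt_finite_res (primeLocalToGlobal q.1) hfin')

/-- `ι : HH¹(Hom(M', KJ)) → (∏_q H¹(D_q, M'))^*`, the sum of the local pairings. -/
noncomputable def ptIota : HH1 (levelsS S) (homCx M' D.KJ) →ₗ[ZMod p]
    Dual (ZMod p) ((q : ↥S) → H1sm (locLevelsS S q.1) (Rep.res (primeLocalToGlobal q.1) M')) :=
  ∑ q : ↥S, (LinearMap.proj q :
      ((q : ↥S) → H1sm (locLevelsS S q.1) (Rep.res (primeLocalToGlobal q.1) M')) →ₗ[ZMod p]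
        H1sm (locLevelsS S q.1) (Rep.res (primeLocalToGlobal q.1) M')).dualMap ∘ₗ
    ptA1loc D M' hM' hfin' q ∘ₗ ptLoc D M' q

lemma ptIota_apply (c : HH1 (levelsS S) (homCx M' D.KJ))
    (y : (q : ↥S) → H1sm (locLevelsS S q.1) (Rep.res (primeLocalToGlobal q.1) M')) :
    ptIota D M' hM' hfin' c y = ∑ q : ↥S, ptA1loc D M' hM' hfin' q (ptLoc D M' q c) (y q) := by
  simp only [ptIota, LinearMap.sum_apply, LinearMap.comp_apply, LinearMap.dualMap_apply,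
    LinearMap.proj_apply]

/-- `ι` is surjective (Shapiro in degree 1 and local duality). -/
theorem ptIota_surjective : Function.Surjective (ptIota D M' hM' hfin') := by
  classical
  intro φ
  have hloc : ∀ q : ↥S, A1Surj (locLevelsS S q.1) (D.loc q).K
      (Rep.res (primeLocalToGlobal q.1) M') (D.loc q).inv
      (pt_isSmooth_res (primeLocalToGlobal q.1) (levelsS S) hM')
      (pt_finite_res (primeLocalToGlobal q.1) hfin') := fun q =>
    (ddt_primeTo (locLevelsS S q.1) (D.loc q).K (D.loc q).smooth (D.loc q).inv (D.loc q).a2inj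
      (D.loc q).a1surj _ _ _).2
  have hex : ∀ q : ↥S, ∃ e : ↥(ZZ1 (locLevelsS S q.1)
      (homCx (Rep.res (primeLocalToGlobal q.1) M') (D.loc q).K)),
      ptA1loc D M' hM' hfin' q (HH1π _ _ e) =
        φ ∘ₗ (LinearMap.single (ZMod p)
          (fun q : ↥S => H1sm (locLevelsS S q.1) (Rep.res (primeLocalToGlobal q.1) M')) q) := by
    intro q
    obtain ⟨e, he⟩ := hloc q (φ ∘ₗ (LinearMap.single (ZMod p)
          (fun q : ↥S => H1sm (locLevelsS S q.1) (Rep.res (primeLocalToGlobal q.1) M')) q))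
    refine ⟨e, LinearMap.ext fun c => ?_⟩
    obtain ⟨y, rfl⟩ := H1smπ_surjective _ _ c
    exact he y
  choose e he using hex
  obtain ⟨z, hz⟩ := D.shapiro1 M' hM' hfin' e
  refine ⟨HH1π _ _ z, LinearMap.ext fun y => ?_⟩
  rw [ptIota_apply]
  have h1 : ∀ q : ↥S, ptLoc D M' q (HH1π _ _ z) = HH1π _ _ (e q) := by
    intro q
    rw [ptLoc_mk, HH1π_eq_iff]
    exact hz q
  have h2 : φ y = ∑ q : ↥S, φ (Pi.single q (y q)) := by
    conv_lhs => rw [← Finset.univ_sum_single y]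
    rw [map_sum]
  rw [h2]
  refine Finset.sum_congr rfl fun q _ => ?_
  rw [h1 q, he q]
  rfl

/-- `β : HH¹(Hom(M', KJ)) → HH¹(Hom(M', KC))`. -/
noncomputable def ptBeta :
    HH1 (levelsS S) (homCx M' D.KJ) →ₗ[ZMod p] HH1 (levelsS S) (homCx M' D.KC) :=
  (homCxPost M' D.g).mapHH1 (levelsS S)

/-- `α = α¹_{M'} : HH¹(Hom(M', KC)) → H¹(G_S, M')^*`. -/
noncomputable def ptAlpha :
    HH1 (levelsS S) (homCx M' D.KC) →ₗ[ZMod p] Dual (ZMod p) (H1sm (levelsS S) M') :=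
  ptA1 (levelsS S) D.KC D.inv M' hM' hfin'

/-- `α ∘ β = loc^* ∘ ι` (global reciprocity). -/
theorem pt_compat :
    ptAlpha D M' hM' hfin' ∘ₗ ptBeta D M' =
      (locSm1Total S M').dualMap ∘ₗ ptIota D M' hM' hfin' := by
  refine LinearMap.ext fun c => LinearMap.ext fun x => ?_
  obtain ⟨z, rfl⟩ := HH1π_surjective _ _ c
  obtain ⟨y, rfl⟩ := H1smπ_surjective _ _ x
  rw [LinearMap.comp_apply, LinearMap.comp_apply, LinearMap.dualMap_apply, ptIota_apply]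
  have hL : ptAlpha D M' hM' hfin' (ptBeta D M' (HH1π _ _ z)) (H1smπ _ _ y) =
      D.inv (HH2π _ _ (D.g.mapZZ2 _ (cupZ1 (levelsS S) D.KJ M' hM' hfin' z y))) := rfl
  rw [hL, D.recip]
  refine Finset.sum_congr rfl fun q _ => ?_
  rfl

end Iota

end Fermat.Agent.F4
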